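import Mathlib
import Fermat.Agent.FF2.HChord.Kernel
import Fermat.Agent.FF2.NS.JetsMatrix

/-!
# MOONSHOT S19, block (F5-SF), part 1: from geometry to the abstract chord data (helper15)

Abstract `S : Red.RedSetup A π`, base ring `j : W →+* A` (`W = Λ_n`).

* `GeoData S j Z ι` : a family `e : ι → F` in the chart ring `B_Z` (a reduced basis of a lattice
  `L(m∞)`), ONE disc coordinate `Cof Q : DiscCoord S Z` for every relevant residue point `Q ∈ rel`
  (centre reducing to `Q`), and RATIONALITY: the Taylor coefficients of the `e i` at those discs lie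
  in (the image of) `W`.
* `GeoData.chordData QD QS QO Rb …` : helper2's `Chord.ChordData W ι D Sg (JetIdx Rb) O` (Taylor
  series of the basis at the discs of the centres `QD d`, `QS s`, `QO o`; fixed jets = Taylor
  coefficients below `Rb` at the points of `supp Rb`);
* `GeoData.honest …` : helper25's `HChord.HonestData S j (chordData …) Z`;
* `GeoData.tb Q := S.resF (Cof Q).t` : the local parameters on the special fibre, `ord_tb`;
* `GeoData.pi_j_eq`, `cond0_map_*`, `pi_j_coeff_τO` : **the reduced condition matrix is the matrix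
  of Taylor coefficients of the reduced basis on the special fibre** (helper25's `ring_pi_coeff`).
-/

set_option autoImplicit false
set_option linter.unusedSectionVars false

namespace Fermat.Agent.FF2.SF

open AlgebraicCurve Fermat.Agent.Red Fermat.Agent.X0 Fermat.Agent.FF2.Disc
  Fermat.Agent.FF2.Chord Fermat.Agent.FF2.HChord Fermat.Agent.FF2.NS

variable {K F k Ft : Type*} [Field K] [Field F] [Algebra K F] [Field k] [Field Ft]
  [Algebra k Ft] {A : ValuationSubring K} {π : A →+* k}

variable {W : Type*} [CommRing W]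

/-- Geometric input of the chords: a lattice basis, disc coordinates at the relevant residue
points, rationality of the Taylor coefficients. -/
structure GeoData (S : RedSetup (F := F) (Ft := Ft) A π) (j : W →+* A) (Z : Set (Place K F))
    (ι : Type*) where
  /-- the lattice basis -/
  e : ι → F
  he : ∀ i, e i ∈ S.chart Z
  /-- the relevant residue points -/
  rel : Set (Place k Ft)
  /-- one disc coordinate for every residue point (junk outside `rel`) -/
  Cof : Place k Ft → DiscCoord S Z
  hCof : ∀ Q ∈ rel, S.r (Cof Q).P₀ = Q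
  rat : ∀ Q ∈ rel, ∀ i n, ∃ w : W, ((j w : A) : K) = (Cof Q).coeff (e i) n

namespace GeoData

variable {S : RedSetup (F := F) (Ft := Ft) A π} {j : W →+* A} {Z : Set (Place K F)}
  {ι : Type*} (G : GeoData S j Z ι)

/-- The local parameter on the special fibre at `Q`. -/
noncomputable def tb (Q : Place k Ft) : Ft := S.resF (G.Cof Q).t

theorem ord_tb {Q : Place k Ft} (hQ : Q ∈ G.rel) : Q.ord (G.tb Q) = 1 := by
  have h := (G.Cof Q).hordres
  rw [G.hCof Q hQ] at h
  exact h

/-- The chosen element of `W` for the `n`-th Taylor coefficient of `e i` at the disc of `Q`. -/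
noncomputable def wcoeff {Q : Place k Ft} (hQ : Q ∈ G.rel) (i : ι) (n : ℕ) : W :=
  (G.rat Q hQ i n).choose

theorem wcoeff_spec {Q : Place k Ft} (hQ : Q ∈ G.rel) (i : ι) (n : ℕ) :
    ((j (G.wcoeff hQ i n) : A) : K) = (G.Cof Q).coeff (G.e i) n :=
  (G.rat Q hQ i n).choose_spec

/-- **Reduction of the chosen coefficients** = Taylor coefficients of the reduced basis. -/
theorem pi_j_wcoeff (hF : RiemannPkg K F) {Q : Place k Ft} (hQ : Q ∈ G.rel) (i : ι) (n : ℕ) :
    π (j (G.wcoeff hQ i n)) = taylorCoeff Q (G.tb Q) (S.resF (G.e i)) n := by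
  have hmem : G.e i ∈ (G.Cof Q).ring := (G.Cof Q).chart_le_ring (G.he i)
  have h1 : j (G.wcoeff hQ i n) =
      ⟨(G.Cof Q).coeff (G.e i) n, (G.Cof Q).ring_coeff_mem hF hmem n⟩ :=
    Subtype.ext (G.wcoeff_spec hQ i n)
  rw [h1, (G.Cof Q).ring_pi_coeff hF hmem n, G.hCof Q hQ]
  rfl

variable {D Sg O : Type*}

/-- helper2's abstract chord data attached to the centres `QD`, `QS`, `QO` and the jets `Rb`. -/
noncomputable def chordData (QD : D → Place k Ft) (QS : Sg → Place k Ft) (QO : O → Place k Ft)
    (Rb : Divisor k Ft) (hQD : ∀ d, QD d ∈ G.rel) (hQS : ∀ s, QS s ∈ G.rel)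
    (hQO : ∀ o, QO o ∈ G.rel) (hR : ∀ Q : {Q : Place k Ft // Q ∈ Rb.support}, Q.1 ∈ G.rel) :
    ChordData W ι D Sg (JetIdx Rb) O where
  τD d i := PowerSeries.mk fun n => G.wcoeff (hQD d) i n
  τS s i := PowerSeries.mk fun n => G.wcoeff (hQS s) i n
  ρ0 x i := G.wcoeff (hR x.1) i x.2
  τO o i := PowerSeries.mk fun n => G.wcoeff (hQO o) i n

/-- helper25's honest data for `chordData`. -/
noncomputable def honest (QD : D → Place k Ft) (QS : Sg → Place k Ft) (QO : O → Place k Ft)
    (Rb : Divisor k Ft) (hQD : ∀ d, QD d ∈ G.rel) (hQS : ∀ s, QS s ∈ G.rel)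
    (hQO : ∀ o, QO o ∈ G.rel) (hR : ∀ Q : {Q : Place k Ft // Q ∈ Rb.support}, Q.1 ∈ G.rel) :
    HonestData S j (G.chordData QD QS QO Rb hQD hQS hQO hR) Z where
  e := G.e
  he := G.he
  CD d := G.Cof (QD d)
  CS s := G.Cof (QS s)
  CO o := G.Cof (QO o)
  Cν x := G.Cof x.1.1
  lν x := x.2
  hτD d i n := by
    rw [chordData, PowerSeries.coeff_mk]
    exact G.wcoeff_spec (hQD d) i n
  hτS s i n := by
    rw [chordData, PowerSeries.coeff_mk]
    exact G.wcoeff_spec (hQS s) i n
  hτO o i n := by
    rw [chordData, PowerSeries.coeff_mk]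
    exact G.wcoeff_spec (hQO o) i n
  hρ0 x i := G.wcoeff_spec (hR x.1) i x.2

end GeoData

end Fermat.Agent.FF2.SF
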