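import Mathlib
import Fermat.Agent.FF2.SF.Build

/-!
# MOONSHOT S19, block (F5-SF): `GeoData` from a finite family of disc coordinates (helper15)

Glue between helper25's (SF-4a) `HChord.exists_discCoords_of_lift` (a family `C : I → DiscCoord S Z`
with prescribed centres) and `SF.GeoData` (ONE disc coordinate `Cof Q` per residue point).

* `GeoData.ofFamily e he Q C hC hrat` : `rel = Set.range Q`, `Cof Q' = C i` for SOME `i` with
  `Q i = Q'` (no injectivity of `Q` needed);
* `ofFamily_rel`, `exists_Cof_eq` ; `Cof_P₀_eq` : if `(C i).P₀ = lift (Q i)` for all `i` then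
  `(Cof Q').P₀ = lift Q'` on `rel` (the centre of the disc IS the chosen lift: needed for the jets of
  the honest section at the points of `R`).
-/

set_option autoImplicit false
set_option linter.unusedSectionVars false

namespace Fermat.Agent.FF2.SF

open AlgebraicCurve Fermat.Agent.Red Fermat.Agent.X0 Fermat.Agent.FF2.Disc

variable {K F k Ft : Type*} [Field K] [Field F] [Algebra K F] [Field k] [Field Ft]
  [Algebra k Ft] {A : ValuationSubring K} {π : A →+* k}

variable {W : Type*} [CommRing W]

open Classical in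
/-- `GeoData` from a family of disc coordinates indexed by a nonempty type. -/
noncomputable def GeoData.ofFamily {S : RedSetup (F := F) (Ft := Ft) A π} {j : W →+* A}
    {Z : Set (Place K F)} {ι : Type*} (e : ι → F) (he : ∀ i, e i ∈ S.chart Z)
    {I : Type*} [Nonempty I] (Q : I → Place k Ft) (C : I → DiscCoord S Z)
    (hC : ∀ a, S.r (C a).P₀ = Q a)
    (hrat : ∀ a i n, ∃ w : W, ((j w : A) : K) = (C a).coeff (e i) n) : GeoData S j Z ι where
  e := e
  he := he
  rel := Set.range Q
  Cof Q' := if h : ∃ a, Q a = Q' then C h.choose else C (Classical.arbitrary I)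
  hCof := by
    rintro Q' ⟨a, rfl⟩
    have h : ∃ a', Q a' = Q a := ⟨a, rfl⟩
    rw [dif_pos h, hC]
    exact h.choose_spec
  rat := by
    rintro Q' ⟨a, rfl⟩ i n
    have h : ∃ a', Q a' = Q a := ⟨a, rfl⟩
    rw [dif_pos h]
    exact hrat _ i n

section

variable {S : RedSetup (F := F) (Ft := Ft) A π} {j : W →+* A}
  {Z : Set (Place K F)} {ι : Type*} (e : ι → F) (he : ∀ i, e i ∈ S.chart Z)
  {I : Type*} [Nonempty I] (Q : I → Place k Ft) (C : I → DiscCoord S Z)
  (hC : ∀ a, S.r (C a).P₀ = Q a)
  (hrat : ∀ a i n, ∃ w : W, ((j w : A) : K) = (C a).coeff (e i) n)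

@[simp] theorem GeoData.ofFamily_e : (GeoData.ofFamily e he Q C hC hrat).e = e := rfl

@[simp] theorem GeoData.ofFamily_rel :
    (GeoData.ofFamily e he Q C hC hrat).rel = Set.range Q := rfl

theorem GeoData.mem_ofFamily_rel (a : I) : Q a ∈ (GeoData.ofFamily e he Q C hC hrat).rel :=
  ⟨a, rfl⟩

/-- On `rel`, `Cof Q'` is a member of the family with centre over `Q'`. -/
theorem GeoData.exists_Cof_eq {Q' : Place k Ft} (hQ' : Q' ∈ Set.range Q) :
    ∃ a, Q a = Q' ∧ (GeoData.ofFamily e he Q C hC hrat).Cof Q' = C a := by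
  classical
  have h : ∃ a, Q a = Q' := hQ'
  refine ⟨h.choose, h.choose_spec, ?_⟩
  show (if h : ∃ a, Q a = Q' then C h.choose else C (Classical.arbitrary I)) = _
  rw [dif_pos h]

/-- If the centres of the family are the `lift`s of the residue centres, so are those of `Cof`. -/
theorem GeoData.Cof_P₀_eq (lift : Place k Ft → Place K F)
    (hlift : ∀ a, (C a).P₀ = lift (Q a)) {Q' : Place k Ft} (hQ' : Q' ∈ Set.range Q) :
    ((GeoData.ofFamily e he Q C hC hrat).Cof Q').P₀ = lift Q' := by
  obtain ⟨a, ha, hCa⟩ := GeoData.exists_Cof_eq e he Q C hC hrat hQ'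
  rw [hCa, hlift a, ha]

end

end Fermat.Agent.FF2.SF
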