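import Mathlib
import Fermat.Agent.FF2.SF.Build

/-!
# MOONSHOT S19, block (F5-SF), part 2: the special-fibre hypotheses of (UC4) for the geometric
chord data, over the residue field `k` of the valuation ring (helper15)

`G : GeoData S j Z ι`, `X₂ := G.chordData …`.  The reduced condition matrix
`M := (cond0 X₂).map (π.comp j)` over `k` is the matrix of Taylor coefficients of the reduced basis
`S.resF ∘ G.e` (`cond0_map_eq_chordOneMat`, `cond0_map_eq_chordTwoMat`), hence by (F1')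
(`ChordOneJets.matrix_facts`, `ChordTwoJets.matrix_facts`):

* `GeoData.chordOne_facts`, `GeoData.chordTwo_facts` : `card ι = #rows + 1`, `M.mulVecLin` is onto,
  and there is `fbk ≠ 0` in the kernel of `M` (the coordinates of `f0b` in the reduced basis) with
  `Σ fbk i * π (j (coeff 0 (τO o i))) = 0`, `Σ fbk i * π (j (coeff 1 (τO o i))) ≠ 0`.

The descent from `k` to `ResidueField W` is (SF-3).
-/

set_option autoImplicit false
set_option linter.unusedSectionVars false
set_option linter.style.haveILetI false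

namespace Fermat.Agent.FF2.SF

open AlgebraicCurve Fermat.Agent.Red Fermat.Agent.X0 Fermat.Agent.FF2.Disc
  Fermat.Agent.FF2.Chord Fermat.Agent.FF2.HChord Fermat.Agent.FF2.NS Module

variable {K F k Ft : Type*} [Field K] [Field F] [Algebra K F] [Field k] [Field Ft]
  [Algebra k Ft] {A : ValuationSubring K} {π : A →+* k}

variable {W : Type*} [CommRing W]

namespace GeoData

variable {S : RedSetup (F := F) (Ft := Ft) A π} {j : W →+* A} {Z : Set (Place K F)}
  {ι : Type*} (G : GeoData S j Z ι) {D Sg O : Type*}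
  (QD : D → Place k Ft) (QS : Sg → Place k Ft) (QO : O → Place k Ft)
  (Rb : Divisor k Ft) (hQD : ∀ d, QD d ∈ G.rel) (hQS : ∀ s, QS s ∈ G.rel)
  (hQO : ∀ o, QO o ∈ G.rel) (hR : ∀ Q : {Q : Place k Ft // Q ∈ Rb.support}, Q.1 ∈ G.rel)
  (hF : RiemannPkg K F)

include hF

theorem cond0_map_inl (d : D) (i : ι) :
    ((cond0 (G.chordData QD QS QO Rb hQD hQS hQO hR)).map (π.comp j)) (.inl d) i =
      taylorCoeff (QD d) (G.tb (QD d)) (S.resF (G.e i)) 0 := by
  rw [Matrix.map_apply, RingHom.comp_apply]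
  show π (j (PowerSeries.coeff 0 (PowerSeries.mk fun n => G.wcoeff (hQD d) i n))) = _
  rw [PowerSeries.coeff_mk, G.pi_j_wcoeff hF]

theorem cond0_map_inr_inl (d : D) (i : ι) :
    ((cond0 (G.chordData QD QS QO Rb hQD hQS hQO hR)).map (π.comp j)) (.inr (.inl d)) i =
      taylorCoeff (QD d) (G.tb (QD d)) (S.resF (G.e i)) 1 := by
  rw [Matrix.map_apply, RingHom.comp_apply]
  show π (j (PowerSeries.coeff 1 (PowerSeries.mk fun n => G.wcoeff (hQD d) i n))) = _
  rw [PowerSeries.coeff_mk, G.pi_j_wcoeff hF]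

theorem cond0_map_inr_inr_inl (s : Sg) (i : ι) :
    ((cond0 (G.chordData QD QS QO Rb hQD hQS hQO hR)).map (π.comp j)) (.inr (.inr (.inl s))) i =
      taylorCoeff (QS s) (G.tb (QS s)) (S.resF (G.e i)) 0 := by
  rw [Matrix.map_apply, RingHom.comp_apply]
  show π (j (PowerSeries.coeff 0 (PowerSeries.mk fun n => G.wcoeff (hQS s) i n))) = _
  rw [PowerSeries.coeff_mk, G.pi_j_wcoeff hF]

theorem cond0_map_inr_inr_inr (x : JetIdx Rb) (i : ι) :
    ((cond0 (G.chordData QD QS QO Rb hQD hQS hQO hR)).map (π.comp j)) (.inr (.inr (.inr x))) i =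
      taylorCoeff x.1.1 (G.tb x.1.1) (S.resF (G.e i)) x.2 := by
  rw [Matrix.map_apply, RingHom.comp_apply]
  show π (j (G.wcoeff (hR x.1) i x.2)) = _
  rw [G.pi_j_wcoeff hF]

theorem pi_j_coeff_τO (o : O) (i : ι) (n : ℕ) :
    π (j (PowerSeries.coeff n ((G.chordData QD QS QO Rb hQD hQS hQO hR).τO o i))) =
      taylorCoeff (QO o) (G.tb (QO o)) (S.resF (G.e i)) n := by
  show π (j (PowerSeries.coeff n (PowerSeries.mk fun n => G.wcoeff (hQO o) i n))) = _
  rw [PowerSeries.coeff_mk, G.pi_j_wcoeff hF]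

end GeoData

namespace GeoData

variable {S : RedSetup (F := F) (Ft := Ft) A π} {j : W →+* A} {Z : Set (Place K F)}
  {ι : Type*} [Fintype ι] (G : GeoData S j Z ι) (hF : RiemannPkg K F) (hFt : RiemannPkg k Ft)
  {g : ℕ} {Pinfb : Place k Ft} {m : ℕ} {Pb Pb' : Fin g → Place k Ft} {f₀ : Ft}
  {Rb : Divisor k Ft}

include hF hFt

/-- **First chord: special-fibre hypotheses of (UC4) over `k`** for the geometric chord data
(`D = Fin g` double conditions at `Pb`, no single conditions, outputs at `Pb'`). -/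
theorem chordOne_facts (hJ : ChordOneJets Pinfb m Pb Pb' f₀ Rb)
    (E : Type*) [Fintype E] [IsEmpty E]
    (hPb : ∀ d, Pb d ∈ G.rel) (hPb' : ∀ o, Pb' o ∈ G.rel)
    (hR : ∀ Q : {Q : Place k Ft // Q ∈ Rb.support}, Q.1 ∈ G.rel)
    (hli : LinearIndependent k fun i => S.resF (G.e i))
    (hmem : ∀ i, S.resF (G.e i) ∈ riemannRochSpace (Finsupp.single Pinfb (m : ℤ)))
    (hcard : Fintype.card ι = finrank k (riemannRochSpace (Finsupp.single Pinfb (m : ℤ)))) :
    Fintype.card ι = Fintype.card (Fin g ⊕ Fin g ⊕ E ⊕ JetIdx Rb) + 1 ∧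
    Function.Surjective ((cond0 (G.chordData Pb (fun e : E => isEmptyElim e) Pb' Rb hPb
      (fun e => isEmptyElim e) hPb' hR)).map (π.comp j)).mulVecLin ∧
    ∃ fbk : ι → k, fbk ≠ 0 ∧ ∑ i, fbk i • S.resF (G.e i) = f₀ ∧
      ((cond0 (G.chordData Pb (fun e : E => isEmptyElim e) Pb' Rb hPb
        (fun e => isEmptyElim e) hPb' hR)).map (π.comp j)).mulVec fbk = 0 ∧
      (∀ o, ∑ i, fbk i * π (j (PowerSeries.coeff 0 ((G.chordData Pb
        (fun e : E => isEmptyElim e) Pb' Rb hPb (fun e => isEmptyElim e) hPb' hR).τO o i))) = 0) ∧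
      (∀ o, ∑ i, fbk i * π (j (PowerSeries.coeff 1 ((G.chordData Pb
        (fun e : E => isEmptyElim e) Pb' Rb hPb (fun e => isEmptyElim e) hPb' hR).τO o i))) ≠ 0) := by
  classical
  haveI := hFt.finite_L (Finsupp.single Pinfb (m : ℤ))
  haveI : Nonempty ι := by
    apply Fintype.card_pos_iff.mp
    have h1 := hJ.finrank_eq
    have h2 := hJ.card_eq
    omega
  have hli' : LinearIndependent k fun i =>
      (⟨S.resF (G.e i), hmem i⟩ : riemannRochSpace (Finsupp.single Pinfb (m : ℤ))) :=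
    LinearIndependent.of_comp (riemannRochSpace (Finsupp.single Pinfb (m : ℤ))).subtype hli
  let b := basisOfLinearIndependentOfCardEqFinrank hli' hcard
  have hb : ∀ i, ((b i : riemannRochSpace (Finsupp.single Pinfb (m : ℤ))) : Ft) =
      S.resF (G.e i) := by
    intro i
    simp [b]
  have ht : ∀ P, (∃ j, Pb j = P) ∨ (∃ j, Pb' j = P) ∨ Rb P ≠ 0 → P.ord (G.tb P) = 1 := by
    rintro P (⟨d, rfl⟩ | ⟨o, rfl⟩ | hP)
    · exact G.ord_tb (hPb d)
    · exact G.ord_tb (hPb' o)
    · exact G.ord_tb (hR ⟨P, Finsupp.mem_support_iff.mpr hP⟩)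
  obtain ⟨h1, h2, fb, hne, hsum, hker, hO0, hO1⟩ := hJ.matrix_facts hFt G.tb ht b E
  have hM : (cond0 (G.chordData Pb (fun e : E => isEmptyElim e) Pb' Rb hPb
      (fun e => isEmptyElim e) hPb' hR)).map (π.comp j) =
      chordOneMat Pb Rb G.tb (fun i => ((b i : riemannRochSpace
        (Finsupp.single Pinfb (m : ℤ))) : Ft)) E := by
    ext r i
    rcases r with d | d | e | x
    · rw [G.cond0_map_inl _ _ _ _ _ _ _ _ hF]
      simp only [chordOneMat, Matrix.of_apply, hb]
    · rw [G.cond0_map_inr_inl _ _ _ _ _ _ _ _ hF]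
      simp only [chordOneMat, Matrix.of_apply, hb]
    · exact isEmptyElim e
    · rw [G.cond0_map_inr_inr_inr _ _ _ _ _ _ _ _ hF]
      simp only [chordOneMat, Matrix.of_apply, hb]
  rw [hM]
  refine ⟨h1, h2, fb, hne, ?_, hker, fun o => ?_, fun o => ?_⟩
  · rw [← hsum]
    exact Finset.sum_congr rfl fun i _ => by rw [hb]
  · rw [← hO0 o]
    refine Finset.sum_congr rfl fun i _ => ?_
    rw [G.pi_j_coeff_τO _ _ _ _ _ _ _ _ hF, hb]
  · intro h0
    apply hO1 o
    rw [← h0]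
    refine Finset.sum_congr rfl fun i _ => ?_
    rw [G.pi_j_coeff_τO _ _ _ _ _ _ _ _ hF, hb]

/-- **Return chord: special-fibre hypotheses of (UC4) over `k`** (no double conditions, single
conditions at `Pb'`, outputs at `Pb`). -/
theorem chordTwo_facts {f₁ : Ft} (hJ : ChordTwoJets Pinfb m Pb Pb' f₁ Rb)
    (E : Type*) [Fintype E] [IsEmpty E]
    (hPb : ∀ d, Pb d ∈ G.rel) (hPb' : ∀ o, Pb' o ∈ G.rel)
    (hR : ∀ Q : {Q : Place k Ft // Q ∈ Rb.support}, Q.1 ∈ G.rel)
    (hli : LinearIndependent k fun i => S.resF (G.e i))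
    (hmem : ∀ i, S.resF (G.e i) ∈ riemannRochSpace (Finsupp.single Pinfb (m : ℤ)))
    (hcard : Fintype.card ι = finrank k (riemannRochSpace (Finsupp.single Pinfb (m : ℤ)))) :
    Fintype.card ι = Fintype.card (E ⊕ E ⊕ Fin g ⊕ JetIdx Rb) + 1 ∧
    Function.Surjective ((cond0 (G.chordData (fun e : E => isEmptyElim e) Pb' Pb Rb
      (fun e => isEmptyElim e) hPb' hPb hR)).map (π.comp j)).mulVecLin ∧
    ∃ fbk : ι → k, fbk ≠ 0 ∧ ∑ i, fbk i • S.resF (G.e i) = f₁ ∧
      ((cond0 (G.chordData (fun e : E => isEmptyElim e) Pb' Pb Rb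
        (fun e => isEmptyElim e) hPb' hPb hR)).map (π.comp j)).mulVec fbk = 0 ∧
      (∀ o, ∑ i, fbk i * π (j (PowerSeries.coeff 0 ((G.chordData
        (fun e : E => isEmptyElim e) Pb' Pb Rb (fun e => isEmptyElim e) hPb' hPb hR).τO o i))) = 0) ∧
      (∀ o, ∑ i, fbk i * π (j (PowerSeries.coeff 1 ((G.chordData
        (fun e : E => isEmptyElim e) Pb' Pb Rb (fun e => isEmptyElim e) hPb' hPb hR).τO o i))) ≠ 0) := by
  classical
  haveI := hFt.finite_L (Finsupp.single Pinfb (m : ℤ))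
  haveI : Nonempty ι := by
    apply Fintype.card_pos_iff.mp
    have h1 := hJ.finrank_eq
    have h2 := hJ.card_eq
    omega
  have hli' : LinearIndependent k fun i =>
      (⟨S.resF (G.e i), hmem i⟩ : riemannRochSpace (Finsupp.single Pinfb (m : ℤ))) :=
    LinearIndependent.of_comp (riemannRochSpace (Finsupp.single Pinfb (m : ℤ))).subtype hli
  let b := basisOfLinearIndependentOfCardEqFinrank hli' hcard
  have hb : ∀ i, ((b i : riemannRochSpace (Finsupp.single Pinfb (m : ℤ))) : Ft) =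
      S.resF (G.e i) := by
    intro i
    simp [b]
  have ht : ∀ P, (∃ j, Pb j = P) ∨ (∃ j, Pb' j = P) ∨ Rb P ≠ 0 → P.ord (G.tb P) = 1 := by
    rintro P (⟨d, rfl⟩ | ⟨o, rfl⟩ | hP)
    · exact G.ord_tb (hPb d)
    · exact G.ord_tb (hPb' o)
    · exact G.ord_tb (hR ⟨P, Finsupp.mem_support_iff.mpr hP⟩)
  obtain ⟨h1, h2, fb, hne, hsum, hker, hO0, hO1⟩ := hJ.matrix_facts hFt G.tb ht b E
  have hM : (cond0 (G.chordData (fun e : E => isEmptyElim e) Pb' Pb Rb
      (fun e => isEmptyElim e) hPb' hPb hR)).map (π.comp j) =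
      chordTwoMat Pb' Rb G.tb (fun i => ((b i : riemannRochSpace
        (Finsupp.single Pinfb (m : ℤ))) : Ft)) E := by
    ext r i
    rcases r with e | e | d | x
    · exact isEmptyElim e
    · exact isEmptyElim e
    · rw [G.cond0_map_inr_inr_inl _ _ _ _ _ _ _ _ hF]
      simp only [chordTwoMat, Matrix.of_apply, hb]
    · rw [G.cond0_map_inr_inr_inr _ _ _ _ _ _ _ _ hF]
      simp only [chordTwoMat, Matrix.of_apply, hb]
  rw [hM]
  refine ⟨h1, h2, fb, hne, ?_, hker, fun o => ?_, fun o => ?_⟩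
  · rw [← hsum]
    exact Finset.sum_congr rfl fun i _ => by rw [hb]
  · rw [← hO0 o]
    refine Finset.sum_congr rfl fun i _ => ?_
    rw [G.pi_j_coeff_τO _ _ _ _ _ _ _ _ hF, hb]
  · intro h0
    apply hO1 o
    rw [← h0]
    refine Finset.sum_congr rfl fun i _ => ?_
    rw [G.pi_j_coeff_τO _ _ _ _ _ _ _ _ hF, hb]

end GeoData

end Fermat.Agent.FF2.SF
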