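import Mathlib
import Fermat.Agent.FF2.SF.OfFamily
import Fermat.Agent.FF2.NS.ChordData

/-!
# MOONSHOT S19, block (F5-SF): field lemmas for `GeoData.honest` (helper15)

The hypotheses that helper22's `G4.addFun_congruence` (F6-b) asks about the honest data, for
`H := G.honest QD QS QO Rb …`:

* `honest_e/_CD/_CS/_CO/_Cν/_lν` : the fields (by `rfl`);
* `r_honest_CD/_CS/_CO/_Cν` : the centres reduce to `QD d`, `QS s`, `QO o`, `x.1.1`;
* `honest_lν_lt` : `(H.lν x : ℤ) < (mapDomain lift Rb) (H.Cν x).P₀` when the centres of the discs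
  are the `lift`s (`hν` of F6-b, with `X.R = mapDomain lift Rb` from (F1'));
* `honest_lν_lt_of_eq` : the same against any `R` with `R = mapDomain lift Rb`.
-/

set_option autoImplicit false
set_option linter.unusedSectionVars false

namespace Fermat.Agent.FF2.SF

open AlgebraicCurve Fermat.Agent.Red Fermat.Agent.X0 Fermat.Agent.FF2.Disc
  Fermat.Agent.FF2.Chord Fermat.Agent.FF2.HChord Fermat.Agent.FF2.NS

variable {K F k Ft : Type*} [Field K] [Field F] [Algebra K F] [Field k] [Field Ft]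
  [Algebra k Ft] {A : ValuationSubring K} {π : A →+* k}

variable {W : Type*} [CommRing W]

namespace GeoData

variable {S : RedSetup (F := F) (Ft := Ft) A π} {j : W →+* A} {Z : Set (Place K F)}
  {ι : Type*} (G : GeoData S j Z ι) {D Sg O : Type*}
  (QD : D → Place k Ft) (QS : Sg → Place k Ft) (QO : O → Place k Ft)
  (Rb : Divisor k Ft) (hQD : ∀ d, QD d ∈ G.rel) (hQS : ∀ s, QS s ∈ G.rel)
  (hQO : ∀ o, QO o ∈ G.rel) (hR : ∀ Q : {Q : Place k Ft // Q ∈ Rb.support}, Q.1 ∈ G.rel)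

@[simp] theorem honest_e : (G.honest QD QS QO Rb hQD hQS hQO hR).e = G.e := rfl

@[simp] theorem honest_CD (d : D) :
    (G.honest QD QS QO Rb hQD hQS hQO hR).CD d = G.Cof (QD d) := rfl

@[simp] theorem honest_CS (s : Sg) :
    (G.honest QD QS QO Rb hQD hQS hQO hR).CS s = G.Cof (QS s) := rfl

@[simp] theorem honest_CO (o : O) :
    (G.honest QD QS QO Rb hQD hQS hQO hR).CO o = G.Cof (QO o) := rfl

@[simp] theorem honest_Cν (x : JetIdx Rb) :
    (G.honest QD QS QO Rb hQD hQS hQO hR).Cν x = G.Cof x.1.1 := rfl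

@[simp] theorem honest_lν (x : JetIdx Rb) :
    (G.honest QD QS QO Rb hQD hQS hQO hR).lν x = x.2 := rfl

theorem r_honest_CD (d : D) :
    S.r ((G.honest QD QS QO Rb hQD hQS hQO hR).CD d).P₀ = QD d := G.hCof _ (hQD d)

theorem r_honest_CS (s : Sg) :
    S.r ((G.honest QD QS QO Rb hQD hQS hQO hR).CS s).P₀ = QS s := G.hCof _ (hQS s)

theorem r_honest_CO (o : O) :
    S.r ((G.honest QD QS QO Rb hQD hQS hQO hR).CO o).P₀ = QO o := G.hCof _ (hQO o)

theorem r_honest_Cν (x : JetIdx Rb) :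
    S.r ((G.honest QD QS QO Rb hQD hQS hQO hR).Cν x).P₀ = x.1.1 := G.hCof _ (hR x.1)

/-- `hν` of (F6-b): the orders of the fixed jets are below the multiplicities of
`R = mapDomain lift Rb` at the centres. -/
theorem honest_lν_lt (lift : Place k Ft → Place K F) (hlift : ∀ Q, S.r (lift Q) = Q)
    (hP₀ : ∀ Q ∈ G.rel, (G.Cof Q).P₀ = lift Q) (x : JetIdx Rb) :
    ((G.honest QD QS QO Rb hQD hQS hQO hR).lν x : ℤ) <
      (Finsupp.mapDomain lift Rb) ((G.honest QD QS QO Rb hQD hQS hQO hR).Cν x).P₀ := by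
  rw [honest_lν, honest_Cν, hP₀ _ (hR x.1), mapDomain_lift_apply_lift lift hlift]
  exact Int.lt_toNat.mp x.2.2

theorem honest_lν_lt_of_eq (lift : Place k Ft → Place K F) (hlift : ∀ Q, S.r (lift Q) = Q)
    (hP₀ : ∀ Q ∈ G.rel, (G.Cof Q).P₀ = lift Q) {R : Divisor K F}
    (hRR : R = Finsupp.mapDomain lift Rb) (x : JetIdx Rb) :
    ((G.honest QD QS QO Rb hQD hQS hQO hR).lν x : ℤ) <
      R ((G.honest QD QS QO Rb hQD hQS hQO hR).Cν x).P₀ := by
  rw [hRR]
  exact G.honest_lν_lt QD QS QO Rb hQD hQS hQO hR lift hlift hP₀ x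

end GeoData

end Fermat.Agent.FF2.SF
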